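import Mathlib

/-!
# S26 / block CUBE, leaf C0 (helper335): the RIGIDITY LEMMA

`K` algebraically closed.  `P`, `Y`, `J` schemes over `Spec K` with `P` locally of finite type,
`Y` proper, `J` separated and locally of finite type, `P × Y` integral.  Let `φ : P × Y ⟶ J` be a
`K`-morphism which is constant on the fibre `p₀ × Y` over a `K`-point `p₀` of `P`.  Then `φ` does
not depend on the second variable: `φ (p, y) = φ (p, y₀)` for every `K`-point `y₀` of `Y`.

* `rigidity_fst` : `φ = fst P Y ≫ lift (𝟙 P) (toUnit P ≫ y₀) ≫ φ`  (parameter space first);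
* `rigidity_snd` : the same for `φ : Y × Z ⟶ J`, constant on `Y × z₀` (proper factor first).

The proof is extracted from Mathlib's proof that proper geometrically integral group schemes are
commutative (`Mathlib/AlgebraicGeometry/Group/Abelian.lean`, A. Yang, C. Merten): Zariski's main
theorem gives an open neighbourhood `U` of `p₀` over which the image of `(p, y) ↦ (p, φ (p, y))`
is finite over `U`; for closed `p ∈ U` the image of the irreducible set `p × Y` is finite, hence a
point; conclude by density of closed points of `U × Y`.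
-/

set_option autoImplicit false

open CategoryTheory Limits

namespace Fermat.Agent.S26.H335

open AlgebraicGeometry MonoidalCategory CartesianMonoidalCategory

universe u

variable {K : Type u} [Field K]

set_option backward.defeqAttrib.useBackward true in
set_option backward.isDefEq.respectTransparency false in
/-- **Rigidity lemma**, parameter space first. -/
theorem rigidity_fst [IsAlgClosed K] (P Y J : Over (Spec (.of K)))
    [LocallyOfFiniteType P.hom] [IsProper Y.hom] [IsSeparated J.hom] [LocallyOfFiniteType J.hom]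
    [IsIntegral (P ⊗ Y).left]
    (p₀ : 𝟙_ (Over (Spec (.of K))) ⟶ P) (y₀ : 𝟙_ (Over (Spec (.of K))) ⟶ Y)
    (j₀ : 𝟙_ (Over (Spec (.of K))) ⟶ J) (φ : P ⊗ Y ⟶ J)
    (hφ : p₀ ▷ Y ≫ φ = toUnit _ ≫ j₀) :
    φ = fst P Y ≫ lift (𝟙 P) (toUnit P ≫ y₀) ≫ φ := by
  let S := Spec (.of K)
  let point : S := IsLocalRing.closedPoint K
  have hpoint : IsClosed {point} := isClosed_discrete _
  have : Nonempty Y.left := ⟨y₀.left point⟩
  have : Nonempty P.left := ⟨p₀.left point⟩
  have : AlgebraicGeometry.Surjective P.hom :=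
    ⟨Function.surjective_to_subsingleton (α := P.left) (β := Spec _) _⟩
  have : LocallyOfFiniteType (P ⊗ Y).hom := by dsimp; infer_instance
  have : JacobsonSpace (P ⊗ Y).left := LocallyOfFiniteType.jacobsonSpace (Y := Spec _) (P ⊗ Y).hom
  have : AlgebraicGeometry.Surjective Y.hom :=
    ⟨Function.surjective_to_subsingleton (α := Y.left) (β := Spec _) _⟩
  have : IsProper (fst P Y).left := by dsimp; infer_instance
  have : AlgebraicGeometry.Surjective (fst P Y).left := by dsimp; infer_instance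
  have : IsSeparated (fst P J).left := by dsimp; infer_instance
  have : LocallyOfFiniteType (fst P J).left := by dsimp; infer_instance
  have : LocallyOfFiniteType (φ.left ≫ J.hom) := by rw [Over.w]; infer_instance
  have : IsClosedImmersion (lift p₀ j₀).left :=
    isClosedImmersion_of_comp_eq_id (Y := Spec (.of K)) (P ⊗ J).hom (lift p₀ j₀).left (by simp)
  let gam : P ⊗ Y ⟶ P ⊗ J := lift (fst _ _) φ
  have : IsProper (gam.left ≫ (fst P J).left) := by simpa [gam]
  have : IsProper gam.left := .of_comp _ (fst P J).left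
  have : IsClosedImmersion p₀.left :=
    isClosedImmersion_of_comp_eq_id (Y := Spec (.of K)) P.hom p₀.left (by simp)
  ext1
  have H : gam.left '' ((fst P Y).left ⁻¹' {p₀.left point}) ⊆ {(lift p₀ j₀).left point} := by
    rw [Set.image_subset_iff, ← Set.sdiff_eq_empty, ← Set.not_nonempty_iff_eq_empty]
    intro H
    obtain ⟨c₀, ⟨hc₁, hc₂⟩, hc₃⟩ := nonempty_inter_closedPoints H <| by
      rw [Set.sdiff_eq_compl_inter, ← Set.image_singleton, ← Set.image_singleton];
      refine (IsOpen.isLocallyClosed ?_).inter (IsClosed.isLocallyClosed ?_)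
      · exact (((lift p₀ j₀).left.isClosedMap _ hpoint).preimage gam.left.continuous).isOpen_compl
      · exact (p₀.left.isClosedMap _ hpoint).preimage (fst P Y).left.continuous
    obtain ⟨⟨c, hc⟩, e⟩ := (pointEquivClosedPoint (P ⊗ Y).hom).surjective ⟨c₀, hc₃⟩
    obtain rfl : c point = c₀ := congr(($e).1)
    let fc : 𝟙_ (Over S) ⟶ 𝟙_ (Over S) ⊗ Y := lift (𝟙 _) (Over.homMk c hc ≫ snd P Y)
    have : c ≫ pullback.fst P.hom Y.hom = p₀.left :=
      ext_of_apply_closedPoint_eq P.hom (by simpa) (by simp) (by simpa)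
    have H₁ : c = fc.left ≫ (p₀ ▷ Y).left := by dsimp; ext <;> simp [fc, S, this]
    have H₂ : fc ≫ p₀ ▷ Y ≫ gam = lift p₀ j₀ := by
      ext1
      · simp [fc, gam, S]
      · simp [fc, gam, S, hφ]
    exact hc₂ <| by simp [H₁, H₂, ← Scheme.Hom.comp_apply, Category.assoc, ← Over.comp_left]
  -- By Zariski's main theorem there is an open `p₀ ∈ U ⊆ P` such that the image of `gam`
  -- restricted to `U` is finite over `U`.
  obtain ⟨U, hηU, H⟩ := exists_finite_imageι_comp_morphismRestrict_of_finite_image_preimage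
    gam.left (fst P J).left (p₀.left point) (by
      dsimp [-Scheme.Hom.comp_base, gam]
      simp only [pullback.lift_fst]
      exact (Set.finite_singleton _).subset H)
  have H (x : U) : ((pullback.fst P.hom J.hom) ⁻¹' {x.1} ∩ Set.range ⇑gam.left).Finite := by
    refine ((((gam.left.imageι ≫ (fst P J).left) ∣_ U).finite_preimage_singleton x).image
      (Scheme.Opens.ι _ ≫ gam.left.imageι)).subset ?_
    have : U.ι ⁻¹' {x.1} = {x} := by ext; simp
    rw [← this, ← Set.preimage_comp, ← TopCat.coe_comp, ← Scheme.Hom.comp_base,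
      morphismRestrict_ι, ← Category.assoc, Scheme.Hom.comp_base (_ ≫ _) (fst P J).left,
      TopCat.coe_comp, Set.preimage_comp, Set.image_preimage_eq_inter_range]
    simp only [Scheme.Hom.comp_base, TopCat.coe_comp, Set.range_comp, Scheme.Opens.range_ι]
    dsimp
    rw [Set.image_preimage_eq_inter_range, Scheme.IdealSheafData.range_subschemeι,
      Scheme.Hom.support_ker, ← Set.inter_assoc, ← Set.preimage_inter,
      Set.singleton_inter_of_mem x.2, IsClosed.closure_eq
      (by exact gam.left.isClosedMap.isClosed_range)]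
  -- It suffices to check set-theoretic equality on closed points of `U ×[k] Y`.
  refine ext_of_apply_eq J.hom _
    ((fst P Y).left ⁻¹ᵁ U).isOpen.isLocallyClosed
    (((fst P Y).left ⁻¹ᵁ U).isOpen.dense ?_) ?_ ?_
  · exact .preimage ⟨_, hηU⟩ (fst P Y).left.surjective
  · intro y hyU hy
    have hx : IsClosed {(fst P Y).left y} := by simpa using (fst P Y).left.isClosedMap _ hy
    let x : 𝟙_ _ ⟶ P := Over.homMk (pointOfClosedPoint P.hom _ hx) (by simp)
    let xe : (P ⊗ Y).left := (fst P Y ≫ lift (𝟙 P) (toUnit P ≫ y₀)).left y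
    have : gam.left y = gam.left xe := by
      -- By the choice of `U`, the set `gam({y} ×[k] Y)` is finite and hence, by irreducibility,
      -- a singleton.
      refine subsingleton_image_closure_of_finite_of_isPreirreducible
        (hx.preimage (fst P Y).left.continuous).isLocallyClosed ?_ gam.left.continuous
        gam.left.isClosedMap ((H ⟨_, hyU⟩).subset (Set.image_subset_iff.mpr fun _ ↦ by
          simp [← Scheme.Hom.comp_apply, -Scheme.Hom.comp_base, gam])) ?_ ?_
      · let α : P ⊗ Y ⟶ P ⊗ Y := toUnit _ ≫ x ⊗ₘ 𝟙 _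
        convert!
          ((IrreducibleSpace.isIrreducible_univ _).image α.left
              α.left.continuous.continuousOn).isPreirreducible
        rw [Over.tensorHom_left]
        simp [Set.range_comp, Scheme.Pullback.range_map, x]
      · exact ⟨y, subset_closure (by simp), rfl⟩
      · refine ⟨xe, subset_closure ?_, rfl⟩
        simp [xe, ← Scheme.Hom.comp_apply, -Scheme.Hom.comp_base]
    have h1 : (snd P J).left (gam.left y) = φ.left y := by
      rw [← Scheme.Hom.comp_apply, ← Over.comp_left]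
      simp [gam]
    have h2 : (snd P J).left (gam.left xe) =
        (fst P Y ≫ lift (𝟙 P) (toUnit P ≫ y₀) ≫ φ).left y := by
      simp only [xe, ← Scheme.Hom.comp_apply, ← Over.comp_left, Category.assoc]
      rw [show fst P Y ≫ lift (𝟙 P) (toUnit P ≫ y₀) ≫ gam ≫ snd P J =
        fst P Y ≫ lift (𝟙 P) (toUnit P ≫ y₀) ≫ φ by simp [gam]]
    rw [← h1, this, h2]
  · simp

/-- **Rigidity lemma**, constant form (parameter space first): if `φ` is moreover constant on
`P × y₀`, it is constant. -/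
theorem rigidity_fst_const [IsAlgClosed K] (P Y J : Over (Spec (.of K)))
    [LocallyOfFiniteType P.hom] [IsProper Y.hom] [IsSeparated J.hom] [LocallyOfFiniteType J.hom]
    [IsIntegral (P ⊗ Y).left]
    (p₀ : 𝟙_ (Over (Spec (.of K))) ⟶ P) (y₀ : 𝟙_ (Over (Spec (.of K))) ⟶ Y)
    (j₀ j₁ : 𝟙_ (Over (Spec (.of K))) ⟶ J) (φ : P ⊗ Y ⟶ J)
    (hφ : p₀ ▷ Y ≫ φ = toUnit _ ≫ j₀) (hφ' : P ◁ y₀ ≫ φ = toUnit _ ≫ j₁) :
    φ = toUnit _ ≫ j₁ := by
  have h := rigidity_fst P Y J p₀ y₀ j₀ φ hφ
  have e : lift (𝟙 P) (toUnit P ≫ y₀) = (ρ_ P).inv ≫ P ◁ y₀ := by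
    ext1 <;> simp
  rw [h, e, Category.assoc, hφ']
  simp

/-- **Rigidity lemma**, proper factor first: `φ : Y × Z ⟶ J` constant on `Y × z₀` satisfies
`φ (y, z) = φ (y₀, z)`. -/
theorem rigidity_snd [IsAlgClosed K] (Y Z J : Over (Spec (.of K)))
    [IsProper Y.hom] [LocallyOfFiniteType Z.hom] [IsSeparated J.hom] [LocallyOfFiniteType J.hom]
    [IsIntegral (Y ⊗ Z).left]
    (y₀ : 𝟙_ (Over (Spec (.of K))) ⟶ Y) (z₀ : 𝟙_ (Over (Spec (.of K))) ⟶ Z)
    (j₀ : 𝟙_ (Over (Spec (.of K))) ⟶ J) (φ : Y ⊗ Z ⟶ J)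
    (hφ : Y ◁ z₀ ≫ φ = toUnit _ ≫ j₀) :
    φ = snd Y Z ≫ lift (toUnit Z ≫ y₀) (𝟙 Z) ≫ φ := by
  have hne : Nonempty (Z ⊗ Y).left := ⟨(β_ Y Z).hom.left (Classical.arbitrary _)⟩
  have hiso : IsIso (β_ Z Y).hom.left :=
    inferInstanceAs (IsIso ((Over.forget _).map (β_ Z Y).hom))
  have : IsIntegral (Z ⊗ Y).left := isIntegral_of_isOpenImmersion (β_ Z Y).hom.left
  have hφ' : z₀ ▷ Y ≫ (β_ Z Y).hom ≫ φ = toUnit _ ≫ j₀ := by
    have e : z₀ ▷ Y ≫ (β_ Z Y).hom = (β_ _ Y).hom ≫ Y ◁ z₀ := by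
      ext1 <;> simp
    rw [← Category.assoc, e, Category.assoc, hφ]
    simp
  have h := rigidity_fst Z Y J z₀ y₀ j₀ ((β_ Z Y).hom ≫ φ) hφ'
  have e1 : φ = (β_ Y Z).hom ≫ (β_ Z Y).hom ≫ φ := by simp
  rw [e1, h]
  have e2 : (β_ Y Z).hom ≫ fst Z Y ≫ lift (𝟙 Z) (toUnit Z ≫ y₀) ≫ (β_ Z Y).hom =
      snd Y Z ≫ lift (toUnit Z ≫ y₀) (𝟙 Z) := by
    ext1 <;> simp
  simp only [← Category.assoc] at e2 ⊢
  rw [e2]
  simp

/-- **Rigidity lemma**, constant form (proper factor first): a morphism `φ : Y × Z ⟶ J` which is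
constant on the two axes `Y × z₀` and `y₀ × Z` is constant. -/
theorem rigidity_snd_const [IsAlgClosed K] (Y Z J : Over (Spec (.of K)))
    [IsProper Y.hom] [LocallyOfFiniteType Z.hom] [IsSeparated J.hom] [LocallyOfFiniteType J.hom]
    [IsIntegral (Y ⊗ Z).left]
    (y₀ : 𝟙_ (Over (Spec (.of K))) ⟶ Y) (z₀ : 𝟙_ (Over (Spec (.of K))) ⟶ Z)
    (j₀ j₁ : 𝟙_ (Over (Spec (.of K))) ⟶ J) (φ : Y ⊗ Z ⟶ J)
    (hφ : Y ◁ z₀ ≫ φ = toUnit _ ≫ j₀) (hφ' : y₀ ▷ Z ≫ φ = toUnit _ ≫ j₁) :
    φ = toUnit _ ≫ j₁ := by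
  have h := rigidity_snd Y Z J y₀ z₀ j₀ φ hφ
  have e : lift (toUnit Z ≫ y₀) (𝟙 Z) = (λ_ Z).inv ≫ y₀ ▷ Z := by
    ext1 <;> simp
  rw [h, e, Category.assoc, hφ']
  simp

end Fermat.Agent.S26.H335
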