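import Fermat.Agent.S26.H335.Rigidity

/-!
# S26 / block CUBE, leaf C0 (helper335): the rigidity lemma, further forms

* `rigidity_snd_geom` / `rigidity_fst_geom`: the integrality of the product is derived from
  `GeometricallyIntegral` of the proper factor and integrality of the other factor;
* `rigidity_pullback`: restatement of `rigidity_snd` for plain schemes over `Spec K` and
  `Limits.pullback`, without `Over` and without the cartesian monoidal structure.
-/

set_option autoImplicit false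

open CategoryTheory Limits

namespace Fermat.Agent.S26.H335

open AlgebraicGeometry MonoidalCategory CartesianMonoidalCategory

universe u

variable {K : Type u} [Field K]

set_option backward.defeqAttrib.useBackward true in
set_option backward.isDefEq.respectTransparency false in
/-- The whiskering `Y ◁ z₀` of a point, on underlying schemes. -/
theorem whiskerLeft_point_left {S : Scheme.{u}} (Y Z : Over S) (z₀ : 𝟙_ (Over S) ⟶ Z) :
    (Y ◁ z₀).left =
      pullback.fst Y.hom (𝟙 S) ≫ pullback.lift (𝟙 Y.left) (Y.hom ≫ z₀.left) (by simp) := by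
  apply pullback.hom_ext
  · rw [Over.whiskerLeft_left_fst]
    simp
  · rw [Over.whiskerLeft_left_snd]
    simp only [Category.assoc, pullback.lift_snd]
    rw [← Category.assoc, pullback.condition]
    simp

set_option backward.defeqAttrib.useBackward true in
set_option backward.isDefEq.respectTransparency false in
/-- The point-section `lift (toUnit Z ≫ y₀) (𝟙 Z)`, on underlying schemes. -/
theorem lift_point_id_left {S : Scheme.{u}} (Y Z : Over S) (y₀ : 𝟙_ (Over S) ⟶ Y) :
    (lift (toUnit Z ≫ y₀) (𝟙 Z)).left =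
      pullback.lift (Z.hom ≫ y₀.left) (𝟙 Z.left) (by simp) := by
  apply pullback.hom_ext <;> simp

set_option backward.defeqAttrib.useBackward true in
set_option backward.isDefEq.respectTransparency false in
/-- **Rigidity lemma**, plain form.  `Y` proper, `Z` locally of finite type, `J` separated and
locally of finite type over the algebraically closed field `K`, `Y ×_K Z` integral, `y₀`, `z₀`
`K`-points; a `K`-morphism `φ : Y ×_K Z ⟶ J` which is constant (`= j₀`) on `Y × z₀` satisfies
`φ (y, z) = φ (y₀, z)`. -/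
theorem rigidity_pullback [IsAlgClosed K] {Y Z J : Scheme.{u}}
    (fY : Y ⟶ Spec (.of K)) (fZ : Z ⟶ Spec (.of K)) (fJ : J ⟶ Spec (.of K))
    [IsProper fY] [LocallyOfFiniteType fZ] [IsSeparated fJ] [LocallyOfFiniteType fJ]
    [IsIntegral (pullback fY fZ)]
    (y₀ : Spec (.of K) ⟶ Y) (hy₀ : y₀ ≫ fY = 𝟙 _)
    (z₀ : Spec (.of K) ⟶ Z) (hz₀ : z₀ ≫ fZ = 𝟙 _)
    (j₀ : Spec (.of K) ⟶ J)
    (φ : pullback fY fZ ⟶ J) (hφJ : φ ≫ fJ = pullback.fst fY fZ ≫ fY)
    (hφ : pullback.lift (𝟙 Y) (fY ≫ z₀) (by simp [hz₀]) ≫ φ = fY ≫ j₀) :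
    φ = pullback.snd fY fZ ≫ pullback.lift (fZ ≫ y₀) (𝟙 Z) (by simp [hy₀]) ≫ φ := by
  have hj₀ : j₀ ≫ fJ = 𝟙 _ := by
    have h1 := congrArg (fun f => y₀ ≫ f ≫ fJ) hφ
    simp only [Category.assoc, hφJ, pullback.lift_fst_assoc, Category.id_comp] at h1
    rw [reassoc_of% hy₀] at h1
    rw [← h1, hy₀]
  let Y' : Over (Spec (.of K)) := Over.mk fY
  let Z' : Over (Spec (.of K)) := Over.mk fZ
  let J' : Over (Spec (.of K)) := Over.mk fJ
  have : IsProper Y'.hom := by dsimp [Y']; infer_instance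
  have : LocallyOfFiniteType Z'.hom := by dsimp [Z']; infer_instance
  have : IsSeparated J'.hom := by dsimp [J']; infer_instance
  have : LocallyOfFiniteType J'.hom := by dsimp [J']; infer_instance
  have : IsIntegral (Y' ⊗ Z').left := by dsimp [Y', Z']; infer_instance
  let y₀' : 𝟙_ (Over (Spec (.of K))) ⟶ Y' := Over.homMk y₀ (by simpa [Y'] using hy₀)
  let z₀' : 𝟙_ (Over (Spec (.of K))) ⟶ Z' := Over.homMk z₀ (by simpa [Z'] using hz₀)
  let j₀' : 𝟙_ (Over (Spec (.of K))) ⟶ J' := Over.homMk j₀ (by simpa [J'] using hj₀)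
  let φ' : Y' ⊗ Z' ⟶ J' := Over.homMk φ (by simpa [Y', Z', J'] using hφJ)
  have hφ' : Y' ◁ z₀' ≫ φ' = toUnit _ ≫ j₀' := by
    ext1
    rw [Over.comp_left, whiskerLeft_point_left, Category.assoc]
    have : pullback.lift (𝟙 Y'.left) (Y'.hom ≫ z₀'.left) (by simp) ≫ φ'.left = fY ≫ j₀ := hφ
    rw [this]
    simp [Y', j₀']
  have h := congrArg Over.Hom.left (rigidity_snd Y' Z' J' y₀' z₀' j₀' φ' hφ')
  rw [Over.comp_left, Over.comp_left, lift_point_id_left] at h
  exact h

/-! ### Forms with `GeometricallyIntegral` in place of integrality of the product -/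

/-- The product of a geometrically integral `K`-scheme and an integral `K`-scheme which is locally
of finite type is integral. -/
theorem isIntegral_tensorObj_left_of_geometricallyIntegral (Y Z : Over (Spec (.of K)))
    [GeometricallyIntegral Y.hom] [LocallyOfFiniteType Z.hom] [IsIntegral Z.left] :
    IsIntegral (Y ⊗ Z).left := by
  have : IsLocallyNoetherian Z.left := LocallyOfFiniteType.isLocallyNoetherian Z.hom
  dsimp
  infer_instance

/-- **Rigidity lemma** (proper factor first), with `Y` proper and geometrically integral and `Z`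
integral and locally of finite type. -/
theorem rigidity_snd_geom [IsAlgClosed K] (Y Z J : Over (Spec (.of K)))
    [IsProper Y.hom] [GeometricallyIntegral Y.hom] [LocallyOfFiniteType Z.hom] [IsIntegral Z.left]
    [IsSeparated J.hom] [LocallyOfFiniteType J.hom]
    (y₀ : 𝟙_ (Over (Spec (.of K))) ⟶ Y) (z₀ : 𝟙_ (Over (Spec (.of K))) ⟶ Z)
    (j₀ : 𝟙_ (Over (Spec (.of K))) ⟶ J) (φ : Y ⊗ Z ⟶ J)
    (hφ : Y ◁ z₀ ≫ φ = toUnit _ ≫ j₀) :
    φ = snd Y Z ≫ lift (toUnit Z ≫ y₀) (𝟙 Z) ≫ φ :=
  haveI := isIntegral_tensorObj_left_of_geometricallyIntegral Y Z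
  rigidity_snd Y Z J y₀ z₀ j₀ φ hφ

/-- **Rigidity lemma**, constant form (proper factor first), with `Y` proper and geometrically
integral and `Z` integral and locally of finite type: a morphism `Y × Z ⟶ J` which is constant on
the two axes `Y × z₀` and `y₀ × Z` is constant. -/
theorem rigidity_snd_const_geom [IsAlgClosed K] (Y Z J : Over (Spec (.of K)))
    [IsProper Y.hom] [GeometricallyIntegral Y.hom] [LocallyOfFiniteType Z.hom] [IsIntegral Z.left]
    [IsSeparated J.hom] [LocallyOfFiniteType J.hom]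
    (y₀ : 𝟙_ (Over (Spec (.of K))) ⟶ Y) (z₀ : 𝟙_ (Over (Spec (.of K))) ⟶ Z)
    (j₀ j₁ : 𝟙_ (Over (Spec (.of K))) ⟶ J) (φ : Y ⊗ Z ⟶ J)
    (hφ : Y ◁ z₀ ≫ φ = toUnit _ ≫ j₀) (hφ' : y₀ ▷ Z ≫ φ = toUnit _ ≫ j₁) :
    φ = toUnit _ ≫ j₁ :=
  haveI := isIntegral_tensorObj_left_of_geometricallyIntegral Y Z
  rigidity_snd_const Y Z J y₀ z₀ j₀ j₁ φ hφ hφ'

end Fermat.Agent.S26.H335
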